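import Mathlib
import Fermat.Prelude.Def_EllipticCurve_FrobeniusTrace

/-!
# Existence of Frobenius elements in `Gal(ℚ̄/ℚ)`

For every prime `ℓ` there is a valuation subring `A` of `ℚ̄` lying over `ℓ` and an element `σ`
of the absolute Galois group which is a Frobenius element at `A`.
-/

set_option autoImplicit false
set_option linter.style.haveILetI false

open scoped Pointwise
open Polynomial

namespace FAh8

local notation "Qb" => AlgebraicClosure ℚ
local notation "GQ" => (AlgebraicClosure ℚ ≃ₐ[ℚ] AlgebraicClosure ℚ)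

local instance isAlgebraicQb : Algebra.IsAlgebraic ℚ (AlgebraicClosure ℚ) :=
  AlgebraicClosure.isAlgebraic ℚ
local instance isAlgClosureQb : IsAlgClosure ℚ (AlgebraicClosure ℚ) :=
  ⟨inferInstance, inferInstance⟩
local instance isGaloisQb : IsGalois ℚ (AlgebraicClosure ℚ) :=
  IsAlgClosure.isGalois ℚ (AlgebraicClosure ℚ)

/-- The ring of all algebraic integers. -/
noncomputable abbrev Zb : Subalgebra ℤ Qb := integralClosure ℤ Qb

/-- The Galois action on the ring of all algebraic integers. -/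
@[instance_reducible]
noncomputable def zbAction : MulSemiringAction GQ Zb where
  smul g x := ⟨g x.1, x.2.map g⟩
  one_smul _ := Subtype.ext rfl
  mul_smul _ _ _ := Subtype.ext rfl
  smul_zero g := Subtype.ext (map_zero g)
  smul_add g x y := Subtype.ext (map_add g x.1 y.1)
  smul_one g := Subtype.ext (map_one g)
  smul_mul g x y := Subtype.ext (map_mul g x.1 y.1)

attribute [local instance] zbAction

theorem zb_coe_smul (g : GQ) (x : Zb) : ((g • x : Zb) : Qb) = g (x : Qb) := rfl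

theorem zb_isInvariant : Algebra.IsInvariant ℤ Zb GQ := by
  refine ⟨fun b hb => ?_⟩
  have h1 : (b : Qb) ∈ IntermediateField.fixedField (⊤ : Subgroup GQ) := by
    rintro ⟨g, -⟩
    exact congrArg Subtype.val (hb g)
  rw [InfiniteGalois.fixedField_bot, IntermediateField.mem_bot] at h1
  obtain ⟨k, hk⟩ := h1
  have hb' : IsIntegral ℤ (algebraMap ℚ Qb k) := hk ▸ b.2
  rw [isIntegral_algebraMap_iff (FaithfulSMul.algebraMap_injective ℚ Qb)] at hb'
  obtain ⟨a, rfl⟩ := IsIntegrallyClosed.algebraMap_eq_of_integral hb'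
  refine ⟨a, Subtype.ext ?_⟩
  rw [← hk]
  simp

theorem exists_frob_zb (ℓ : ℕ) (hℓ : ℓ.Prime) (Q : Ideal Zb) [Q.IsPrime] (hQ : (ℓ : Zb) ∈ Q) :
    ∃ g : GQ, g • Q = Q ∧ ∀ b : Zb, g • b - b ^ ℓ ∈ Q := by
  haveI : Fact ℓ.Prime := ⟨hℓ⟩
  let P : Ideal ℤ := Ideal.span {(ℓ : ℤ)}
  have hPmax : P.IsMaximal := Int.ideal_span_isMaximal_of_prime ℓ
  haveI : Q.LiesOver P := ⟨by
    refine hPmax.eq_of_le (Ideal.comap_ne_top _ (Ideal.IsPrime.ne_top inferInstance)) ?_
    rw [Ideal.span_le, Set.singleton_subset_iff]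
    show algebraMap ℤ Zb (ℓ : ℤ) ∈ Q
    simpa using hQ⟩
  letI : TopologicalSpace Zb := ⊥
  haveI : DiscreteTopology Zb := ⟨rfl⟩
  haveI : ContinuousSMul GQ Zb := by
    rw [continuousSMul_iff_stabilizer_isOpen]
    intro x
    convert stabilizer_isOpen_of_isIntegral (K := ℚ) (x : Qb) using 1
    ext g
    simp only [SetLike.mem_coe, MulAction.mem_stabilizer_iff, Subtype.ext_iff, zb_coe_smul]
    rfl
  haveI := zb_isInvariant
  haveI : CharP (Zb ⧸ Q) ℓ := by
    rw [CharP.charP_iff_prime_eq_zero hℓ]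
    have : ((ℓ : Zb ⧸ Q)) = Ideal.Quotient.mk Q (ℓ : Zb) := by simp
    rw [this, Ideal.Quotient.eq_zero_iff_mem]
    exact hQ
  let f : (Zb ⧸ Q) →ₐ[ℤ ⧸ P] (Zb ⧸ Q) :=
    { frobenius (Zb ⧸ Q) ℓ with
      commutes' := by
        intro r
        obtain ⟨n, rfl⟩ := Ideal.Quotient.mk_surjective r
        have : algebraMap (ℤ ⧸ P) (Zb ⧸ Q) (Ideal.Quotient.mk P n) = ((n : ℤ) : Zb ⧸ Q) := by
          rw [Ideal.Quotient.algebraMap_mk_of_liesOver]
          simp
        simp only [this]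
        exact map_intCast (frobenius (Zb ⧸ Q) ℓ) n }
  have hf : Function.Bijective f := by
    refine ⟨frobenius_inj (Zb ⧸ Q) ℓ, fun y => ?_⟩
    obtain ⟨b, rfl⟩ := Ideal.Quotient.mk_surjective y
    obtain ⟨c, hc⟩ := IsAlgClosed.exists_pow_nat_eq (b : Qb) hℓ.pos
    have hc' : IsIntegral ℤ c := IsIntegral.of_pow hℓ.pos (hc ▸ b.2)
    refine ⟨Ideal.Quotient.mk Q ⟨c, hc'⟩, ?_⟩
    show (Ideal.Quotient.mk Q ⟨c, hc'⟩) ^ ℓ = _
    rw [← map_pow]
    congr 1
    exact Subtype.ext hc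
  obtain ⟨⟨g, hg⟩, hgσ⟩ := Ideal.Quotient.stabilizerHom_surjective_of_profinite (G := GQ) P Q
    (AlgEquiv.ofBijective f hf)
  refine ⟨g, hg, fun b => ?_⟩
  have h1 := DFunLike.congr_fun hgσ (Ideal.Quotient.mk Q b)
  rw [Ideal.Quotient.stabilizerHom_apply] at h1
  rw [← Ideal.Quotient.eq, map_pow]
  exact h1

/-- Seidenberg's lemma for the localisation of `ℤ̄` at a prime `Q`. -/
theorem mem_or_inv_mem_aux (Q : Ideal Zb) [Q.IsPrime] (x : Qb) (hx : x ≠ 0) :
    ∀ (n : ℕ) (q : Zb[X]), q.natDegree = n → aeval x q = 0 → (∃ i, q.coeff i ∉ Q) →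
      (∃ s b : Zb, s ∉ Q ∧ (s : Qb) * x = b) ∨ (∃ s b : Zb, s ∉ Q ∧ (s : Qb) * x⁻¹ = b) := by
  intro n
  induction n using Nat.strong_induction_on with
  | _ n ih =>
    intro q hn hq hi
    have hint : IsIntegral ℤ (q.leadingCoeff • x) :=
      isIntegral_trans _ (isIntegral_leadingCoeff_smul q x hq)
    let b : Zb := ⟨q.leadingCoeff • x, hint⟩
    have hb : (q.leadingCoeff : Qb) * x = b := rfl
    by_cases hc : q.leadingCoeff ∈ Q
    · by_cases hbQ : b ∈ Q
      · obtain ⟨i, hi⟩ := hi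
        have hin : i ≠ n := by
          rintro rfl
          apply hi
          rw [← hn]
          exact hc
        have hn0 : n ≠ 0 := by
          rintro rfl
          apply hi
          rw [Polynomial.coeff_eq_zero_of_natDegree_lt (by omega)]
          exact Q.zero_mem
        let q' : Zb[X] := q.eraseLead + C b * X ^ (n - 1)
        have hdeg : q'.natDegree < n := by
          have h1 : q.eraseLead.natDegree ≤ n - 1 := hn ▸ Polynomial.eraseLead_natDegree_le q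
          have h2 : (C b * X ^ (n - 1) : Zb[X]).natDegree ≤ n - 1 :=
            Polynomial.natDegree_C_mul_X_pow_le b (n - 1)
          have h3 : q'.natDegree ≤ n - 1 := Polynomial.natDegree_add_le_of_degree_le h1 h2
          omega
        refine ih q'.natDegree hdeg q' rfl ?_ ⟨i, ?_⟩
        · have h1 : aeval x q = aeval x q.eraseLead + (q.leadingCoeff : Qb) * x ^ n := by
            conv_lhs => rw [← Polynomial.eraseLead_add_C_mul_X_pow q]
            rw [map_add, map_mul, aeval_C, map_pow, aeval_X, hn]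
            rfl
          have h2 : aeval x q' = aeval x q.eraseLead + (b : Qb) * x ^ (n - 1) := by
            simp only [q', map_add, map_mul, aeval_C, map_pow, aeval_X]
            rfl
          rw [h2, ← hb, mul_assoc, ← pow_succ', Nat.sub_add_cancel (Nat.pos_of_ne_zero hn0), ← h1, hq]
        · intro hmem
          apply hi
          have h1 : q'.coeff i = q.coeff i + (if i = n - 1 then b else 0) := by
            simp only [q', coeff_add, coeff_C_mul, coeff_X_pow, Polynomial.eraseLead_coeff, hn,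
              if_neg hin]
            split_ifs <;> simp
          rw [h1] at hmem
          have h2 : (if i = n - 1 then b else 0) ∈ Q := by
            split_ifs
            · exact hbQ
            · exact Q.zero_mem
          exact (Ideal.add_mem_iff_left Q h2).mp hmem
      · right
        refine ⟨b, q.leadingCoeff, hbQ, ?_⟩
        rw [← hb, mul_assoc, mul_inv_cancel₀ hx, mul_one]
    · left
      exact ⟨q.leadingCoeff, b, hc, hb⟩

theorem dvd_of_intCast_mem (ℓ : ℕ) (hℓ : ℓ.Prime) (Q : Ideal Zb) [Q.IsPrime] (hQ : (ℓ : Zb) ∈ Q)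
    (n : ℤ) (hn : algebraMap ℤ Zb n ∈ Q) : (ℓ : ℤ) ∣ n := by
  haveI : Fact ℓ.Prime := ⟨hℓ⟩
  have hPmax : (Ideal.span {(ℓ : ℤ)}).IsMaximal := Int.ideal_span_isMaximal_of_prime ℓ
  have h : Ideal.span {(ℓ : ℤ)} = Q.under ℤ := by
    refine hPmax.eq_of_le (Ideal.comap_ne_top _ (Ideal.IsPrime.ne_top inferInstance)) ?_
    rw [Ideal.span_le, Set.singleton_subset_iff]
    show algebraMap ℤ Zb (ℓ : ℤ) ∈ Q
    simpa using hQ
  have h2 : n ∈ Q.under ℤ := hn
  rw [← h, Ideal.mem_span_singleton] at h2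
  exact h2

theorem mem_or_inv_mem (ℓ : ℕ) (hℓ : ℓ.Prime) (Q : Ideal Zb) [Q.IsPrime] (hQ : (ℓ : Zb) ∈ Q)
    (x : Qb) :
    (∃ s b : Zb, s ∉ Q ∧ (s : Qb) * x = b) ∨ (∃ s b : Zb, s ∉ Q ∧ (s : Qb) * x⁻¹ = b) := by
  have h1Q : (1 : Zb) ∉ Q := (Ideal.ne_top_iff_one Q).mp (Ideal.IsPrime.ne_top inferInstance)
  by_cases hx : x = 0
  · left
    exact ⟨1, 0, h1Q, by simp [hx]⟩
  have halg : IsAlgebraic ℤ x :=
    (IsFractionRing.isAlgebraic_iff ℤ ℚ Qb).mpr (Algebra.IsAlgebraic.isAlgebraic (R := ℚ) x)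
  obtain ⟨p, hp0, hpx⟩ := halg
  have hprim := Polynomial.aeval_primPart_eq_zero hp0 hpx
  refine mem_or_inv_mem_aux Q x hx _ (p.primPart.map (algebraMap ℤ Zb)) rfl ?_ ?_
  · rw [Polynomial.aeval_map_algebraMap]
    exact hprim
  · by_contra hcon
    push Not at hcon
    have hdvd : C (ℓ : ℤ) ∣ p.primPart := by
      rw [Polynomial.C_dvd_iff_dvd_coeff]
      intro i
      have := hcon i
      rw [Polynomial.coeff_map] at this
      exact dvd_of_intCast_mem ℓ hℓ Q hQ _ this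
    have hunit := p.isPrimitive_primPart _ hdvd
    rw [Int.isUnit_iff] at hunit
    have := hℓ.two_le
    omega

/-- The localisation of `ℤ̄` at a prime `Q` above `ℓ`, as a valuation subring of `ℚ̄`. -/
noncomputable def locVS (ℓ : ℕ) (hℓ : ℓ.Prime) (Q : Ideal Zb) [Q.IsPrime] (hQ : (ℓ : Zb) ∈ Q) :
    ValuationSubring Qb where
  carrier := {x | ∃ s b : Zb, s ∉ Q ∧ (s : Qb) * x = b}
  mul_mem' := by
    rintro x y ⟨s, b, hs, hb⟩ ⟨s', b', hs', hb'⟩
    refine ⟨s * s', b * b', fun h => ?_, ?_⟩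
    · exact ((Ideal.IsPrime.mem_or_mem inferInstance h).elim hs hs')
    · push_cast
      rw [← hb, ← hb']
      ring
  one_mem' := ⟨1, 1, (Ideal.ne_top_iff_one Q).mp (Ideal.IsPrime.ne_top inferInstance), by simp⟩
  add_mem' := by
    rintro x y ⟨s, b, hs, hb⟩ ⟨s', b', hs', hb'⟩
    refine ⟨s * s', b * s' + b' * s, fun h => ?_, ?_⟩
    · exact ((Ideal.IsPrime.mem_or_mem inferInstance h).elim hs hs')
    · push_cast
      rw [← hb, ← hb']
      ring
  zero_mem' := ⟨1, 0, (Ideal.ne_top_iff_one Q).mp (Ideal.IsPrime.ne_top inferInstance), by simp⟩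
  neg_mem' := by
    rintro x ⟨s, b, hs, hb⟩
    exact ⟨s, -b, hs, by push_cast; rw [← hb]; ring⟩
  mem_or_inv_mem' x := mem_or_inv_mem ℓ hℓ Q hQ x

theorem mem_locVS {ℓ : ℕ} {hℓ : ℓ.Prime} {Q : Ideal Zb} [Q.IsPrime] {hQ : (ℓ : Zb) ∈ Q} {x : Qb} :
    x ∈ locVS ℓ hℓ Q hQ ↔ ∃ s b : Zb, s ∉ Q ∧ (s : Qb) * x = b := Iff.rfl

theorem mem_nonunits_locVS {ℓ : ℕ} {hℓ : ℓ.Prime} {Q : Ideal Zb} [Q.IsPrime] {hQ : (ℓ : Zb) ∈ Q}
    {x : Qb} (s b : Zb) (hs : s ∉ Q) (hb : b ∈ Q) (h : (s : Qb) * x = b) :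
    x ∈ (locVS ℓ hℓ Q hQ).nonunits := by
  rw [ValuationSubring.mem_nonunits_iff]
  by_contra hcon
  rw [not_lt] at hcon
  have hx0 : x ≠ 0 := by
    rintro rfl
    simp at hcon
  have hinv : x⁻¹ ∈ locVS ℓ hℓ Q hQ := by
    rw [← ValuationSubring.valuation_le_one_iff, map_inv₀]
    exact inv_le_one_of_one_le₀ hcon
  obtain ⟨s', b', hs', hb'⟩ := hinv
  have h1 : s * s' = b * b' := by
    apply Subtype.ext
    push_cast
    rw [← h, ← hb']
    field_simp
  have h2 : s * s' ∈ Q := h1 ▸ Q.mul_mem_right _ hb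
  exact (Ideal.IsPrime.mem_or_mem inferInstance h2).elim hs hs'

theorem map_mem_locVS {ℓ : ℕ} {hℓ : ℓ.Prime} {Q : Ideal Zb} [Q.IsPrime] {hQ : (ℓ : Zb) ∈ Q}
    (h : GQ) (hh : h • Q = Q) {x : Qb} (hx : x ∈ locVS ℓ hℓ Q hQ) : h x ∈ locVS ℓ hℓ Q hQ := by
  obtain ⟨s, b, hs, hb⟩ := hx
  refine ⟨h • s, h • b, fun hmem => hs ?_, ?_⟩
  · rw [← hh] at hmem
    exact (Ideal.smul_mem_pointwise_smul_iff).mp hmem
  · rw [zb_coe_smul, zb_coe_smul, ← map_mul, hb]

/-- For every prime `ℓ` there are a place of `ℚ̄` over `ℓ` and a Frobenius element at it. -/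
theorem exists_frobenius (ℓ : ℕ) (hℓ : ℓ.Prime) :
    ∃ (A : ValuationSubring (AlgebraicClosure ℚ))
      (σ : AlgebraicClosure ℚ ≃ₐ[ℚ] AlgebraicClosure ℚ),
      A.LiesOverPrime ℓ ∧ A.IsFrobeniusAt σ ℓ := by
  haveI : Fact ℓ.Prime := ⟨hℓ⟩
  have hPmax : (Ideal.span {(ℓ : ℤ)}).IsMaximal := Int.ideal_span_isMaximal_of_prime ℓ
  obtain ⟨Q, hQmax, hQP⟩ := Ideal.exists_ideal_over_maximal_of_isIntegral (S := Zb)
    (Ideal.span {(ℓ : ℤ)}) (by
      rw [(RingHom.injective_iff_ker_eq_bot _).mp (FaithfulSMul.algebraMap_injective ℤ Zb)]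
      exact bot_le)
  haveI := hQmax.isPrime
  have hQ : (ℓ : Zb) ∈ Q := by
    have h1 : (ℓ : ℤ) ∈ Q.comap (algebraMap ℤ Zb) := hQP ▸ Ideal.mem_span_singleton_self _
    simpa using h1
  obtain ⟨g, hgQ, hg⟩ := exists_frob_zb ℓ hℓ Q hQ
  have h1Q : (1 : Zb) ∉ Q := (Ideal.ne_top_iff_one Q).mp (Ideal.IsPrime.ne_top inferInstance)
  have hgQ' : g⁻¹ • Q = Q := by rw [inv_smul_eq_iff, hgQ]
  have hdec : g ∈ (locVS ℓ hℓ Q hQ).decompositionSubgroup ℚ := by
    rw [MulAction.mem_stabilizer_iff]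
    apply SetLike.ext
    intro x
    rw [ValuationSubring.mem_pointwise_smul_iff_inv_smul_mem]
    constructor
    · intro hx
      have := map_mem_locVS g hgQ hx
      rwa [AlgEquiv.smul_def, ← AlgEquiv.mul_apply, mul_inv_cancel, AlgEquiv.one_apply] at this
    · intro hx
      exact map_mem_locVS g⁻¹ hgQ' hx
  refine ⟨locVS ℓ hℓ Q hQ, g, ?_, hdec, ?_⟩
  · exact mem_nonunits_locVS 1 (ℓ : Zb) h1Q hQ (by simp)
  · intro x
    obtain ⟨a, rfl⟩ := IsLocalRing.residue_surjective x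
    rw [← IsLocalRing.ResidueField.residue_smul, ← map_pow, ← sub_eq_zero, ← map_sub,
      IsLocalRing.residue_eq_zero_iff]
    obtain ⟨s, b, hs, hb⟩ := a.2
    have hgs : g • s ∉ Q := fun hmem => hs (by
      rw [← hgQ] at hmem
      exact (Ideal.smul_mem_pointwise_smul_iff).mp hmem)
    have hnon : (g (a : Qb) - (a : Qb) ^ ℓ) ∈ (locVS ℓ hℓ Q hQ).nonunits := by
      refine mem_nonunits_locVS ((g • s) * s ^ ℓ) (s ^ ℓ * (g • b - b ^ ℓ) - b ^ ℓ * (g • s - s ^ ℓ))
        (fun hmem => ?_) ?_ ?_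
      · rcases Ideal.IsPrime.mem_or_mem inferInstance hmem with h | h
        · exact hgs h
        · exact hs (Ideal.IsPrime.mem_of_pow_mem inferInstance _ h)
      · exact Q.sub_mem (Q.mul_mem_left _ (hg b)) (Q.mul_mem_left _ (hg s))
      · push_cast
        rw [zb_coe_smul, zb_coe_smul, ← hb, map_mul]
        ring
    obtain ⟨ha, hmem⟩ := ValuationSubring.mem_nonunits_iff_exists_mem_maximalIdeal.mp hnon
    exact hmem

end FAh8
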