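import Mathlib

/-!
# Abstract lemmas for the patching descent step (S57)
-/

set_option autoImplicit false
set_option linter.style.haveILetI false

open RingTheory.Sequence

namespace FAh8

/-- Transport of weakly regular sequences along a "semilinear basis". -/
theorem isWeaklyRegular_of_semilinear_basis {R S N : Type*} [CommRing R] [CommRing S]
    [AddCommGroup N] [Module S N] (f : R →+* S) {d : ℕ} (b : Fin d → N)
    (hspan : ∀ x : N, ∃ c : Fin d → R, x = ∑ i, f (c i) • b i)
    (hrel : ∀ c : Fin d → R, ∑ i, f (c i) • b i = 0 → ∀ i, c i = 0)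
    {rs : List R} (h : IsWeaklyRegular R rs) : IsWeaklyRegular N (rs.map f) := by
  let e0 : (Fin d → R) →+ N :=
    AddMonoidHom.mk' (fun c => ∑ i, f (c i) • b i) (by
      intro c c'
      simp only [Pi.add_apply, map_add, add_smul, Finset.sum_add_distrib])
  have hinj : Function.Injective e0 := by
    rw [injective_iff_map_eq_zero]
    intro c hc
    funext i
    exact hrel c hc i
  have hsurj : Function.Surjective e0 := fun x => by
    obtain ⟨c, hc⟩ := hspan x
    exact ⟨c, hc.symm⟩
  let e : (Fin d → R) ≃+ N := AddEquiv.ofBijective e0 ⟨hinj, hsurj⟩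
  have h1 : IsWeaklyRegular (Fin d → R) rs :=
    ((TensorProduct.lid R (Fin d → R)).isWeaklyRegular_congr rs).mp
      (h.isWeaklyRegular_rTensor (M₂ := Fin d → R))
  refine (AddEquiv.isWeaklyRegular_congr (e := e) ?_).mp h1
  refine List.forall₂_map_right_iff.mpr (List.forall₂_same.mpr fun r _ x => ?_)
  show ∑ i, f ((r • x) i) • b i = f r • ∑ i, f (x i) • b i
  simp only [Pi.smul_apply, smul_eq_mul, map_mul, mul_smul, Finset.smul_sum]

/-- Descent of freeness along a semilinear quotient map. -/
theorem free_and_ker_eq_of_free {A R N M : Type*} [CommRing A] [CommRing R]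
    [AddCommGroup N] [Module A N] [AddCommGroup M] [Module R M] [Nontrivial M]
    [Module.Free A N] (ψ : A →+* R) (hψ : Function.Surjective ψ) (π : N →+ M)
    (hπs : ∀ (f : A) (x : N), π (f • x) = ψ f • π x) (hπ : Function.Surjective π)
    (I : Ideal A) (hI : I ≤ RingHom.ker ψ)
    (hker : ∀ x : N, π x = 0 ↔ x ∈ I • (⊤ : Submodule A N)) :
    Module.Free R M ∧ Module.annihilator R M = ⊥ ∧ RingHom.ker ψ = I := by
  let e := Module.Free.chooseBasis A N
  -- coordinates of elements of `I • ⊤` lie in `I`
  have hcoord : ∀ x ∈ I • (⊤ : Submodule A N), ∀ j, e.repr x j ∈ I := by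
    intro x hx j
    refine Submodule.smul_induction_on hx ?_ ?_
    · intro a ha n _
      rw [map_smul, Finsupp.smul_apply, smul_eq_mul]
      exact I.mul_mem_right _ ha
    · intro x y hx hy
      rw [map_add, Finsupp.add_apply]
      exact I.add_mem hx hy
  have hπsum : ∀ c : Module.Free.ChooseBasisIndex A N →₀ A,
      π (c.sum fun j a => a • e j) = c.sum fun j a => ψ a • π (e j) := by
    intro c
    rw [Finsupp.sum, map_sum, Finsupp.sum]
    exact Finset.sum_congr rfl fun j _ => hπs _ _
  have hli : LinearIndependent R (fun j => π (e j)) := by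
    rw [linearIndependent_iff]
    intro l hl
    obtain ⟨c, rfl⟩ := Finsupp.mapRange_surjective ψ (map_zero ψ) hψ l
    rw [Finsupp.linearCombination_apply, Finsupp.sum_mapRange_index (by simp), ← hπsum, hker] at hl
    ext j
    have h1 := hcoord _ hl j
    have h2 : e.repr (c.sum fun j a => a • e j) = c := by
      rw [← Finsupp.linearCombination_apply, e.repr_linearCombination]
    rw [h2] at h1
    simpa using hI h1
  have hsp : ⊤ ≤ Submodule.span R (Set.range fun j => π (e j)) := by
    intro m _
    obtain ⟨n, rfl⟩ := hπ m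
    rw [← e.linearCombination_repr n, Finsupp.linearCombination_apply, hπsum]
    exact Submodule.sum_mem _ fun j _ =>
      Submodule.smul_mem _ _ (Submodule.subset_span ⟨j, rfl⟩)
  have hfree : Module.Free R M := Module.Free.of_basis (Module.Basis.mk hli hsp)
  have hne : Nonempty (Module.Free.ChooseBasisIndex A N) := by
    by_contra hcon
    rw [not_nonempty_iff] at hcon
    obtain ⟨m, hm⟩ := exists_ne (0 : M)
    obtain ⟨n, rfl⟩ := hπ m
    apply hm
    have : n = 0 := by
      rw [← e.linearCombination_repr n, Subsingleton.elim (e.repr n) 0, map_zero]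
    rw [this, map_zero]
  obtain ⟨j0⟩ := hne
  refine ⟨hfree, Module.annihilator_eq_bot.mpr inferInstance, le_antisymm ?_ hI⟩
  intro a ha
  have h1 : π (a • e j0) = 0 := by rw [hπs, (RingHom.mem_ker).mp ha, zero_smul]
  have h2 := hcoord _ ((hker _).mp h1) j0
  simpa using h2

/-- A finite module killed by a maximal ideal is Artinian. -/
theorem isArtinian_of_finite_of_maximal_smul_eq_zero {O Q : Type*} [CommRing O] [AddCommGroup Q]
    [Module O Q] [Module.Finite O Q] (I : Ideal O) [hI : I.IsMaximal]
    (h : ∀ a ∈ I, ∀ x : Q, a • x = 0) : IsArtinian O Q := by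
  have htors : Module.IsTorsionBySet O Q (I : Set O) := by
    intro x a
    exact h a.1 a.2 x
  letI : Module (O ⧸ I) Q := htors.module
  haveI : Module.Finite (O ⧸ I) Q := Module.Finite.of_restrictScalars_finite O (O ⧸ I) Q
  letI : Field (O ⧸ I) := Ideal.Quotient.field I
  haveI : IsArtinian (O ⧸ I) Q := inferInstance
  exact isArtinian_of_surjective_algebraMap (S := O) (R := O ⧸ I) (M := Q)
    Ideal.Quotient.mk_surjective

/-- Finite length criterion used for `N / (ϖ, φ X₁, …, φ X_r) N`. -/
theorem isFiniteLength_of_span_of_maximal {O A Q : Type*} [CommRing O] [CommRing A] [Algebra O A]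
    [IsNoetherianRing A] [AddCommGroup Q] [Module A Q] (I : Ideal O) [hI : I.IsMaximal]
    {d : ℕ} (q : Fin d → Q)
    (h1 : ∀ x : Q, ∃ a : Fin d → O, x = ∑ i, algebraMap O A (a i) • q i)
    (h2 : ∀ a ∈ I, ∀ x : Q, algebraMap O A a • x = 0) : IsFiniteLength A Q := by
  classical
  letI : Module O Q := Module.compHom Q (algebraMap O A)
  have hsm : ∀ (a : O) (x : Q), a • x = algebraMap O A a • x := fun _ _ => rfl
  haveI : IsScalarTower O A Q := ⟨fun a f x => by
    rw [hsm, Algebra.smul_def, mul_smul]⟩
  haveI : Module.Finite O Q := by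
    refine ⟨⟨Finset.univ.image q, ?_⟩⟩
    rw [eq_top_iff]
    intro x _
    obtain ⟨a, rfl⟩ := h1 x
    refine Submodule.sum_mem _ fun i _ => ?_
    rw [← hsm]
    exact Submodule.smul_mem _ _ (Submodule.subset_span (by simp))
  haveI : Module.Finite A Q := Module.Finite.of_restrictScalars_finite O A Q
  haveI : IsArtinian O Q := isArtinian_of_finite_of_maximal_smul_eq_zero I h2
  rw [isFiniteLength_iff_isNoetherian_isArtinian]
  exact ⟨inferInstance, isArtinian_of_tower O inferInstance⟩

end FAh8
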