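import Fermat.Agent.H8.Patching
import Fermat.Prelude.Def_Algebra_PatchingDatum

/-!
# The patching descent step, modulo the freeness criterion over `𝒪⟦X₁,…,X_r⟧`
-/

set_option autoImplicit false
set_option linter.style.haveILetI false

open RingTheory.Sequence IsLocalRing

namespace FAh8

theorem patching_core
    {𝒪 : Type} [CommRing 𝒪] [IsDomain 𝒪] [IsDiscreteValuationRing 𝒪]
    {r : ℕ} {R : Type} [CommRing R] [Algebra 𝒪 R]
    {M : Type} [AddCommGroup M] [Module R M] [Nontrivial M]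
    (L : Algebra.PatchingLevel 𝒪 r R M ⊥)
    (ϖ : 𝒪) (hϖ : ¬ IsUnit ϖ)
    (xs : List (MvPowerSeries (Fin r) 𝒪))
    (hreg : IsWeaklyRegular (MvPowerSeries (Fin r) 𝒪) xs) (hlen : xs.length = r + 1)
    (hmax : maximalIdeal (MvPowerSeries (Fin r) 𝒪) ≤ Ideal.ofList xs)
    (hxs : ∀ x ∈ xs, (∃ i, x = MvPowerSeries.X i) ∨ x = MvPowerSeries.C ϖ)
    (hfree : ∀ (N : Type) [AddCommGroup N] [Module (MvPowerSeries (Fin r) 𝒪) N]
      [Module.Finite (MvPowerSeries (Fin r) 𝒪) N] (rs : List (MvPowerSeries (Fin r) 𝒪)),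
      rs.length = r + 1 → (∀ x ∈ rs, x ∈ maximalIdeal (MvPowerSeries (Fin r) 𝒪)) →
      IsWeaklyRegular N rs →
      IsFiniteLength (MvPowerSeries (Fin r) 𝒪)
        (N ⧸ Ideal.ofList rs • (⊤ : Submodule (MvPowerSeries (Fin r) 𝒪) N)) →
      Module.Free (MvPowerSeries (Fin r) 𝒪) N) :
    Module.Free R M ∧ Module.annihilator R M = ⊥ ∧
      RingHom.ker L.ψ = Ideal.span (Set.range fun i : Fin r => L.φ (MvPowerSeries.X i)) := by
  classical
  haveI : Nontrivial R := Module.nontrivial R M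
  -- `N` is finite over `A`
  haveI hfin : Module.Finite (MvPowerSeries (Fin r) 𝒪) L.N := by
    refine ⟨⟨Finset.univ.image L.b, ?_⟩⟩
    rw [eq_top_iff]
    intro x _
    obtain ⟨c, rfl⟩ := L.b_span x
    exact Submodule.sum_mem _ fun i _ =>
      Submodule.smul_mem _ _ (Submodule.subset_span (by simp))
  have hregN : IsWeaklyRegular L.N (xs.map (L.φ : MvPowerSeries (Fin r) 𝒪 →+* MvPowerSeries (Fin r) 𝒪)) :=
    isWeaklyRegular_of_semilinear_basis
      (L.φ : MvPowerSeries (Fin r) 𝒪 →+* MvPowerSeries (Fin r) 𝒪) L.b L.b_span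
      (fun c hc i => by simpa using (L.b_rel c).mp hc i) hreg
  have hφC : ∀ a : 𝒪, L.φ (MvPowerSeries.C a) = MvPowerSeries.C a := by
    intro a
    rw [MvPowerSeries.c_eq_algebraMap]
    exact L.φ.commutes a
  have hCmem : ∀ a : 𝒪, ¬ IsUnit a →
      (MvPowerSeries.C a : MvPowerSeries (Fin r) 𝒪) ∈ maximalIdeal (MvPowerSeries (Fin r) 𝒪) := by
    intro a ha
    rw [mem_maximalIdeal, mem_nonunits_iff, MvPowerSeries.isUnit_iff_constantCoeff]
    simpa using ha
  have hmem : ∀ x ∈ xs.map (L.φ : MvPowerSeries (Fin r) 𝒪 →+* MvPowerSeries (Fin r) 𝒪),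
      x ∈ maximalIdeal (MvPowerSeries (Fin r) 𝒪) := by
    intro x hx
    obtain ⟨y, hy, rfl⟩ := List.mem_map.mp hx
    rcases hxs y hy with ⟨i, rfl⟩ | rfl
    · rw [mem_maximalIdeal, mem_nonunits_iff]
      intro hu
      have := hu.map L.ψ
      rw [RingHom.coe_coe, L.ψ_φ_X i] at this
      exact not_isUnit_zero this
    · rw [RingHom.coe_coe, hφC]
      exact hCmem ϖ hϖ
  -- elements of `φ(𝔪)` kill the quotient
  have hkill : ∀ f ∈ maximalIdeal (MvPowerSeries (Fin r) 𝒪), ∀ n : L.N,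
      L.φ f • n ∈ Ideal.ofList (xs.map (L.φ : MvPowerSeries (Fin r) 𝒪 →+* MvPowerSeries (Fin r) 𝒪)) •
        (⊤ : Submodule (MvPowerSeries (Fin r) 𝒪) L.N) := by
    intro f hf n
    refine Submodule.smul_mem_smul ?_ Submodule.mem_top
    rw [← Ideal.map_ofList]
    exact Ideal.mem_map_of_mem _ (hmax hf)
  have hfl : IsFiniteLength (MvPowerSeries (Fin r) 𝒪)
      (L.N ⧸ Ideal.ofList (xs.map (L.φ : MvPowerSeries (Fin r) 𝒪 →+* MvPowerSeries (Fin r) 𝒪)) •
        (⊤ : Submodule (MvPowerSeries (Fin r) 𝒪) L.N)) := by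
    refine isFiniteLength_of_span_of_maximal (O := 𝒪) (maximalIdeal 𝒪)
      (fun i => Submodule.Quotient.mk (L.b i)) ?_ ?_
    · intro x
      obtain ⟨n, rfl⟩ := Submodule.Quotient.mk_surjective _ x
      obtain ⟨c, rfl⟩ := L.b_span n
      refine ⟨fun i => MvPowerSeries.constantCoeff (c i), ?_⟩
      simp only [← Submodule.mkQ_apply, ← map_smul]
      rw [← map_sum, Submodule.mkQ_apply, Submodule.mkQ_apply, Submodule.Quotient.eq,
        ← Finset.sum_sub_distrib]
      refine Submodule.sum_mem _ fun i _ => ?_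
      rw [← sub_smul, ← MvPowerSeries.c_eq_algebraMap, ← hφC, ← map_sub]
      refine hkill _ ?_ _
      rw [mem_maximalIdeal, mem_nonunits_iff, MvPowerSeries.isUnit_iff_constantCoeff]
      simp
    · intro a ha x
      obtain ⟨n, rfl⟩ := Submodule.Quotient.mk_surjective _ x
      rw [← Submodule.Quotient.mk_smul, Submodule.Quotient.mk_eq_zero,
        ← MvPowerSeries.c_eq_algebraMap, ← hφC]
      exact hkill _ (hCmem a ha) n
  haveI : Module.Free (MvPowerSeries (Fin r) 𝒪) L.N :=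
    hfree L.N _ (by simpa using hlen) hmem hregN hfl
  refine free_and_ker_eq_of_free (L.ψ : MvPowerSeries (Fin r) 𝒪 →+* R) L.ψ_surjective L.π
    L.π_smul L.π_surjective _ ?_ L.ker_π
  rw [Ideal.span_le]
  rintro _ ⟨i, rfl⟩
  exact L.ψ_φ_X i

end FAh8
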